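/-
PROGRAMME I (S33, p-new half), block B3 (expansion layer), node DISC-INST (helper24): the disc
column `FF3/ExpandDisc` (helper25) instantiated at a smooth family over the tower of levels
(`FF3/SmoothFam.TowerFamily`).

`X : TowerFamily A hq hA O res Q T`, `hX : Standing X π` (the three standing hypotheses `hres`,
`hker`, `hAO` on the component), `(Ω, j, hj)` a normed field with `‖j c‖ ≤ 1 ↔ c ∈ A` (the same
plug-in as the node column `FF3/ExpandBR`).

* (a) `WS_le_constRing`, `wsHom` : the constants `W'_S = A ∩ K₀(S)` of the tower are constants of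
  the level `S`; `mem_of_mem_constRing`, `valuation_const_le` : the constants of a level are
  integral and discretely valued with uniformizer `unif A hq hA S`; `exists_ws_sub_lt` : and have
  the residue field of `W'_S`;
* (b) `t_mem`, `t_notMem_nonunits`, `ord_res_t`;
* (c) `norm_le_one_of_mem`, `norm_lt_one_of_lt`, `exists_dense`, `exists_collar`;
* (d) `discExpandS X hX j hj S D : X.R S →+* B` for a target `D : DiscTarget …` with the clauses of
  `FF3/ExpandDisc` restated without hypotheses;
* (e) `discExpandS_mono` : functoriality in the level and in the target;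
* the Gauss / order / pole clauses of `FF3/ExpandDisc/{Gauss,Pole}` at the family;
* `isFrac_iff`, `fracSubring_eq`, `mem_gaussRing_iff` : `Frac (X.R S) = F_S`, the Gauss ring of the
  level is `O ∩ F_S`; `exists_valuation_eq_zpow_FS`, `div_unif_mem_FS` (H1),
  `eq_zero_of_forall_div_pow_mem_FS` (H2) : the inputs of `DVCompl.Datum` for `O₀ = O ∩ F_S`.
-/
import Mathlib
import Fermat.Agent.FF3.SmoothFam.Tower
import Fermat.Agent.FF3.ExpandDisc.Gauss
import Fermat.Agent.FF3.ExpandDisc.Pole
import Fermat.Agent.FF3.ExpandDisc.Loc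

set_option autoImplicit false
set_option linter.unusedSectionVars false

noncomputable section

namespace Fermat.Agent.FF3.DiscInst

open AlgebraicCurve IsLocalRing Fermat.Agent.Red Fermat.Agent.X0 Fermat.Agent.Val
  Fermat.Agent.BR.Centre Fermat.Agent.BR.S0 Fermat.Agent.BR.Inst.Levels
  Fermat.Agent.FF3.SmoothFam Fermat.Agent.FF3.ExpandDisc Fermat.Agent.FF3.Expand

variable {N : ℕ} [NeZero N] {A : ValuationSubring Kb} {q : ℕ} {hq : q.Prime}
  {hA : A.LiesOverPrime q} {k Ft : Type*} [Field k] [Field Ft] [Algebra k Ft]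
  {O : ValuationSubring (Fb N)} {res : O →+* Ft} {Q : Place k Ft}
  {T : Set (Place Kb (Fb N))}

/-- **The standing hypotheses on the component** `(O, res)` of a family: `res` extends the
residue map `π` of the constants, kills the maximal ideal of `O`, and the constants of the maximal
ideal of `A` are non-units of `O`. -/
structure Standing (X : TowerFamily A hq hA O res Q T) (π : A →+* k) : Prop where
  hres : ∀ (a : Kb) (ha : a ∈ A) (h : algebraMap Kb (Fb N) a ∈ O),
    res ⟨algebraMap Kb (Fb N) a, h⟩ = algebraMap k Ft (π ⟨a, ha⟩)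
  hker : ∀ x : O, (x : Fb N) ∈ O.nonunits → res x = 0
  hAO : ∀ c : Kb, A.valuation c < 1 → algebraMap Kb (Fb N) c ∈ O.nonunits

variable (X : TowerFamily A hq hA O res Q T) {π : A →+* k} (hX : Standing X π)

/-! ### (a) the constants of a level -/

/-- the constants `W'_S = A ∩ K₀(S)` of the tower are constants of the level `S` -/
theorem WS_le_constRing (S : Finset Kb) : WS A q S ≤ constRing (K := Kb) (X.R S) :=
  fun a ha => X.const_mem S a ha

/-- the inclusion of the constants of the tower in the constants of the level -/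
def wsHom (S : Finset Kb) : WS A q S →+* constRing (K := Kb) (X.R S) :=
  Subring.inclusion (WS_le_constRing X S)

@[simp] theorem coe_wsHom (S : Finset Kb) (a : WS A q S) :
    ((wsHom X S a : constRing (X.R S)) : Kb) = a := rfl

/-- the uniformizer of the level is the uniformizer of the tower -/
theorem unif_eq (S : Finset Kb) :
    ExpandDisc.unif (X.level S) = wsHom X S ⟨BR.Inst.Levels.unif A hq hA S, unif_mem_WS A hq hA S⟩ := rfl

include hX in
/-- the constants of a level are integral -/
theorem mem_of_mem_constRing (S : Finset Kb) {c : Kb} (hc : c ∈ constRing (K := Kb) (X.R S)) :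
    c ∈ A :=
  ExpandDisc.mem_of_mem_constRing (X.level S) hX.hAO hc

include hX in
/-- the constants of a level are discretely valued, with the uniformizer of the tower -/
theorem valuation_const_le (S : Finset Kb) {c : Kb} (hc : c ∈ constRing (K := Kb) (X.R S))
    (hlt : A.valuation c < 1) : A.valuation c ≤ A.valuation (BR.Inst.Levels.unif A hq hA S) :=
  ExpandDisc.valuation_const_le (X.level S) hX.hAO hc hlt

/-- the constants of a level have the residue field of `W'_S` -/
theorem exists_ws_sub_lt (hq : q.Prime) (hA : A.LiesOverPrime q) (S : Finset Kb) {c : Kb}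
    (hc : c ∈ A) :
    ∃ a ∈ WS A q S, A.valuation (c - a) < 1 := by
  obtain ⟨a, ha, hd⟩ := fullRes_WS A hq hA S c hc
  exact ⟨a, ha, (ValuationSubring.mem_nonunits_iff A).mp hd⟩

/-! ### (b) the parameter -/

theorem t_mem : X.t ∈ O := (X.level ∅).le _ (X.level ∅).t_mem

theorem ord_res_t : Q.ord (res ⟨X.t, t_mem X⟩) = 1 := X.ord_t _

include hX in
theorem t_notMem_nonunits : X.t ∉ O.nonunits := by
  intro h
  have h1 := ord_res_t X
  rw [hX.hker ⟨X.t, t_mem X⟩ h, Place.ord_zero] at h1
  exact zero_ne_one h1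

/-! ### (c) the plug-in `(Ω, j)` -/

section Omega

variable {Ω : Type*} [NormedField Ω] (j : Kb →+* Ω) (hj : ∀ c : Kb, ‖j c‖ ≤ 1 ↔ c ∈ A)

include hj in
theorem norm_le_one_of_mem (x : Kb) (hx : x ∈ A) : ‖j x‖ ≤ 1 := (hj x).mpr hx

include hj in
theorem norm_lt_one_of_lt (x : Kb) (hx : A.valuation x < 1) : ‖j x‖ < 1 := by
  rcases eq_or_ne x 0 with rfl | hx0
  · rw [map_zero, norm_zero]
    exact zero_lt_one
  have h1 : x⁻¹ ∉ A := by
    rw [← A.valuation_le_one_iff, map_inv₀, not_le]
    exact (one_lt_inv₀ (zero_lt_iff.mpr ((Valuation.ne_zero_iff _).mpr hx0))).mpr hx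
  have h2 : ¬ ‖j x⁻¹‖ ≤ 1 := fun h => h1 ((hj _).mp h)
  rw [not_le, map_inv₀, norm_inv] at h2
  have hpos : 0 < ‖j x‖ := norm_pos_iff.mpr ((map_ne_zero j).mpr hx0)
  exact (one_lt_inv₀ hpos).mp h2

include hj in
/-- the value group is dense near `1` (`ℚ̄` is algebraically closed) -/
theorem exists_dense (hq : q.Prime) (hA : A.LiesOverPrime q) (ρ : ℝ) (hρ : ρ < 1) :
    ∃ c : Kb, A.valuation c < 1 ∧ ρ < ‖j c‖ := by
  set c₀ : Kb := BR.Inst.Levels.unif A hq hA ∅ with hc₀
  have hc₀0 : c₀ ≠ 0 := unif_ne_zero A hq hA ∅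
  have hc₀1 : A.valuation c₀ < 1 := unif_lt_one A hq hA ∅
  have hr0 : 0 < ‖j c₀‖ := norm_pos_iff.mpr ((map_ne_zero j).mpr hc₀0)
  have hr1 : ‖j c₀‖ < 1 := norm_lt_one_of_lt j hj c₀ hc₀1
  set ρ' : ℝ := max ρ 0 with hρ'
  have hρ'0 : 0 ≤ ρ' := le_max_right _ _
  have hρ'1 : ρ' < 1 := max_lt hρ zero_lt_one
  obtain ⟨n, hn⟩ := exists_pow_lt_of_lt_one hr0 hρ'1
  have hn0 : n ≠ 0 := by
    rintro rfl
    rw [pow_zero] at hn
    exact absurd (hr1.trans hn) (lt_irrefl _)
  obtain ⟨c, hc⟩ := IsAlgClosed.exists_pow_nat_eq c₀ (Nat.pos_of_ne_zero hn0)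
  have hnorm : ‖j c‖ ^ n = ‖j c₀‖ := by rw [← norm_pow, ← map_pow, hc]
  refine ⟨c, ?_, ?_⟩
  · by_contra hge
    rw [not_lt] at hge
    have h1 : 1 ≤ A.valuation c ^ n := one_le_pow₀ hge
    rw [← map_pow, hc] at h1
    exact absurd hc₀1 (not_lt.mpr h1)
  · refine (le_max_left ρ 0).trans_lt ?_
    by_contra hle
    rw [not_lt] at hle
    have := pow_le_pow_left₀ (norm_nonneg (j c)) hle n
    rw [hnorm] at this
    exact absurd hn (not_lt.mpr this)

include hX hj in
/-- **The collar**: the tube has places with coordinate of norm arbitrarily close to `1`. -/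
theorem exists_collar (ρ : ℝ) (hρ : ρ < 1) : ∃ P : T, ρ < ‖j (evalAt P.1 X.t)‖ :=
  ExpandDisc.exists_collar X.fam hX.hAO (t_notMem_nonunits X hX) j (exists_dense j hj hq hA) ρ hρ

end Omega

/-! ### (d) the expansion at the level `S` -/

section ExpandS

variable {Ω : Type*} [NormedField Ω] [IsUltrametricDist Ω] (j : Kb →+* Ω)
  (hj : ∀ c : Kb, ‖j c‖ ≤ 1 ↔ c ∈ A) {B : Type*} [CommRing B]

/-- the type of the targets of the expansion at the level `S` -/
abbrev Target (S : Finset Kb) (B : Type*) [CommRing B] :=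
  DiscTarget (constRing (K := Kb) (X.R S)) B Ω (ExpandDisc.unif (X.level S))
    (j.comp (constRing (K := Kb) (X.R S)).subtype)

/-- the point of the unit disc of `Ω` defined by a place of the tube -/
def ptS (P : T) : {z : Ω // ‖z‖ < 1} :=
  ⟨j (evalAt P.1 X.t), norm_lt_one_of_lt j hj _ ((X.level ∅).valuation_evalAt_lt_one P.2)⟩

theorem ptS_eq (S : Finset Kb) (P : T) :
    ExpandDisc.pt (X.level S) j (norm_lt_one_of_lt j hj) P = ptS X j hj P := rfl

/-- **The expansion of the functions of the level `S` in the coordinate `t`.** -/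
def discExpandS (S : Finset Kb) (D : Target X j S B) : X.R S →+* B :=
  discExpand (X.level S) j (norm_le_one_of_mem j hj) (norm_lt_one_of_lt j hj) D
    (exists_collar X hX j hj)

variable (S : Finset Kb) (D : Target X j S B)

/-- the expansion has the same values as the function at the places of the tube -/
theorem evB_discExpandS (P : T) (y : X.R S) :
    D.evB (ptS X j hj P) (discExpandS X hX j hj S D y) = j (evalAt P.1 (y : Fb N)) :=
  evB_discExpand (X.level S) j _ _ D _ P y

/-- the expansion is characterised by its values -/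
theorem discExpandS_eq {b : B} {y : X.R S}
    (h : ∀ P : T, D.evB (ptS X j hj P) b = j (evalAt P.1 (y : Fb N))) :
    discExpandS X hX j hj S D y = b :=
  discExpand_eq (X.level S) j _ _ D _ h

theorem discExpandS_unique (e : X.R S →+* B)
    (he : ∀ (P : T) (y : X.R S), D.evB (ptS X j hj P) (e y) = j (evalAt P.1 (y : Fb N))) :
    e = discExpandS X hX j hj S D :=
  discExpand_unique (X.level S) j _ _ D _ e he

@[simp] theorem discExpandS_const (a : constRing (K := Kb) (X.R S)) :
    discExpandS X hX j hj S D (constHom (X.R S) a) = D.c a :=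
  discExpand_const (X.level S) j _ _ D _ a

/-- the constants of the tower -/
theorem discExpandS_ws (a : WS A q S) :
    discExpandS X hX j hj S D ⟨algebraMap Kb (Fb N) a, X.const_mem S a a.2⟩ =
      D.c (wsHom X S a) :=
  discExpandS_const X hX j hj S D (wsHom X S a)

@[simp] theorem discExpandS_coord :
    discExpandS X hX j hj S D ⟨X.t, (X.level S).t_mem⟩ = D.X :=
  discExpand_coord (X.level S) j _ _ D _

/-- the expansion maps `(ϖ, t) ^ n` into `(ϖ, X) ^ n` -/
theorem discExpandS_mem_pow {n : ℕ} {y : X.R S}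
    (hy : y ∈ Ideal.span {constHom (X.R S) (ExpandDisc.unif (X.level S)),
      coord (X.level S)} ^ n) :
    discExpandS X hX j hj S D y ∈ Ideal.span {D.c (ExpandDisc.unif (X.level S)), D.X} ^ n :=
  discExpand_mem_pow (X.level S) j _ _ D _ hy

/-- the expansion is injective -/
theorem discExpandS_injective : Function.Injective (discExpandS X hX j hj S D) :=
  discExpand_injective (X.level S) j _ _ D _ j.injective fun y hy =>
    eq_zero_of_forall_evalAt_eq_zero (X.level S) hX.hAO (t_notMem_nonunits X hX) y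
      fun P hP => hy ⟨P, hP⟩

/-- **(e) Functoriality in the level and in the target**: for `S ⊆ S'` and a homomorphism of
targets compatible with the evaluations, the expansions commute with the inclusion of the
levels. -/
theorem discExpandS_mono {B' : Type*} [CommRing B'] {S S' : Finset Kb} (h : S ⊆ S')
    (D : Target X j S B) (D' : Target X j S' B') (β : B →+* B')
    (hβ : ∀ (z : {z : Ω // ‖z‖ < 1}) (b : B), D'.evB z (β b) = D.evB z b) (y : X.R S) :
    β (discExpandS X hX j hj S D y) =
      discExpandS X hX j hj S' D' (Subring.inclusion (X.mono h) y) := by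
  symm
  apply discExpandS_eq
  intro P
  rw [hβ, evB_discExpandS]
  rfl

/-! ### the Gauss and order clauses -/

/-- **The Gauss clause**: a function of the level is divisible by the uniformizer — i.e. lies in
the maximal ideal of the component — iff its expansion is divisible by the uniformizer. -/
theorem unif_dvd_iff_discExpandS_mem
    (hB : (Ideal.span {D.c (ExpandDisc.unif (X.level S))}).IsPrime)
    (hXB : D.X ∉ Ideal.span {D.c (ExpandDisc.unif (X.level S))}) (y : X.R S) :
    constHom (X.R S) (ExpandDisc.unif (X.level S)) ∣ y ↔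
      discExpandS X hX j hj S D y ∈ Ideal.span {D.c (ExpandDisc.unif (X.level S))} :=
  unif_dvd_iff_discExpand_mem (X.level S) j _ _ D _ hB hXB y

/-- the Gauss clause in terms of the component -/
theorem mem_nonunits_iff_discExpandS_mem
    (hB : (Ideal.span {D.c (ExpandDisc.unif (X.level S))}).IsPrime)
    (hXB : D.X ∉ Ideal.span {D.c (ExpandDisc.unif (X.level S))}) (y : X.R S) :
    (y : Fb N) ∈ O.nonunits ↔
      discExpandS X hX j hj S D y ∈ Ideal.span {D.c (ExpandDisc.unif (X.level S))} := by
  rw [← unif_dvd_iff_discExpandS_mem X hX j hj S D hB hXB y]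
  exact mem_nonunits_iff_unif_dvd (X.level S) hX.hAO y

/-- **The order clause**: a function `y` of the level which is a unit of the component is
`t ^ n * s` modulo `ϖ` with `s` a unit of the level, `n` is the order at `Q` of the reduction of
`y`, and the expansion of `y` is `X ^ n * (a unit)` modulo `ϖ`. -/
theorem exists_discExpandS_sub_mem {y : X.R S} (hy : (y : Fb N) ∉ O.nonunits) :
    ∃ (n : ℕ) (s : X.R S), IsUnit s ∧
      y - coord (X.level S) ^ n * s ∈
        Ideal.span {constHom (X.R S) (ExpandDisc.unif (X.level S))} ∧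
      Q.ord (res ⟨y, (X.level S).le y y.2⟩) = n ∧
      IsUnit (discExpandS X hX j hj S D s) ∧
      discExpandS X hX j hj S D y - D.X ^ n * discExpandS X hX j hj S D s ∈
        Ideal.span {D.c (ExpandDisc.unif (X.level S))} := by
  have hy' : ¬ constHom (X.R S) (ExpandDisc.unif (X.level S)) ∣ y := fun h =>
    hy ((mem_nonunits_iff_unif_dvd (X.level S) hX.hAO y).mpr h)
  obtain ⟨n, s, hs, hys⟩ := exists_pow_mul_sub_mem_span (X.level S) hy'
  have h1 := ord_res_eq (X.level S) hX.hres hX.hker hX.hAO (ord_res_t X) hs hys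
  obtain ⟨h2, h3⟩ := discExpand_sub_mem (X.level S) j (norm_le_one_of_mem j hj)
    (norm_lt_one_of_lt j hj) D (exists_collar X hX j hj) hs hys
  exact ⟨n, s, hs, hys, h1, h2, h3⟩

end ExpandS

/-! ### functions with prescribed poles on the disc -/

section Pole

include hX in
/-- **Functions with prescribed poles on the disc lie in the level** (`ExpandDisc.mul_prod_zpow_mem`
at the family). -/
theorem mul_prod_zpow_mem [DecidableEq Kb] (S : Finset Kb) {h : Fb N}
    (hfrac : IsFrac (X.R S) h) (hO : h ∈ O)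
    (s : Finset Kb) (hsR : ∀ c ∈ s, algebraMap Kb (Fb N) c ∈ X.R S)
    (hs : ∀ c ∈ s, A.valuation c < 1) (n : Kb → ℤ)
    (hpole : ∀ P ∈ T, ∀ c₀ : Kb, IsValueAt P X.t c₀ →
      0 ≤ P.ord h + (if c₀ ∈ s then n c₀ else 0)) :
    h * ∏ c ∈ s, (X.t - algebraMap Kb (Fb N) c) ^ n c ∈ X.R S :=
  ExpandDisc.mul_prod_zpow_mem X.fam hX.hAO (t_notMem_nonunits X hX) S hfrac hO s hsR hs n hpole

include hX in
/-- **Functions with prescribed zeros and poles on the disc are units of the level.** -/
theorem isUnit_mul_prod_zpow [DecidableEq Kb] (S : Finset Kb) {h : Fb N}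
    (hfrac : IsFrac (X.R S) h) (hO : O.valuation h = 1)
    (s : Finset Kb) (hsR : ∀ c ∈ s, algebraMap Kb (Fb N) c ∈ X.R S)
    (hs : ∀ c ∈ s, A.valuation c < 1) (n : Kb → ℤ)
    (hpole : ∀ P ∈ T, ∀ c₀ : Kb, IsValueAt P X.t c₀ →
      P.ord h + (if c₀ ∈ s then n c₀ else 0) = 0) :
    ∃ z z' : X.R S, z * z' = 1 ∧
      (z : Fb N) = h * ∏ c ∈ s, (X.t - algebraMap Kb (Fb N) c) ^ n c :=
  ExpandDisc.isUnit_mul_prod_zpow X.fam hX.hAO (t_notMem_nonunits X hX) S hfrac hO s hsR hs n
    hpole

include hX in
/-- every `c` with `|c| < 1` is the coordinate of a place of the tube -/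
theorem exists_place_of_lt {c : Kb} (hc : A.valuation c < 1) : ∃ P ∈ T, IsValueAt P X.t c :=
  ExpandDisc.exists_place_of_lt X.fam hX.hAO (t_notMem_nonunits X hX) hc

end Pole

/-! ### the function field of the level and the Gauss ring of the component -/

section Loc

/-- **the fraction field of the level `S` is the field `F_S = K₀(S)·F_N` of the `K₀(S)`-rational
functions** -/
theorem isFrac_iff (S : Finset Kb) {y : Fb N} : IsFrac (X.R S) y ↔ y ∈ FS N q S := by
  constructor
  · rintro ⟨a, b, hb, hab⟩
    have hb0 : (b : Fb N) ≠ 0 := fun h => hb (Subtype.ext h)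
    have e : y = (a : Fb N) * ((b : Fb N))⁻¹ := by
      rw [← hab, mul_assoc, mul_inv_cancel₀ hb0, mul_one]
    rw [e]
    exact (FS N q S).mul_mem (X.le_FS S a.2) ((FS N q S).inv_mem (X.le_FS S b.2))
  · exact X.frac_FS S y

theorem fracSubring_eq (S : Finset Kb) : fracSubring (X.R S) = (FS N q S).toSubring := by
  ext y
  exact isFrac_iff X S

/-- the Gauss ring of the level `S` is the valuation ring of the component in `F_S` -/
theorem mem_gaussRing_iff (S : Finset Kb) {y : Fb N} :
    y ∈ gaussRing (X.level S) ↔ y ∈ O ∧ y ∈ FS N q S := by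
  rw [mem_gaussRing, isFrac_iff]

theorem gaussRing_eq (S : Finset Kb) :
    gaussRing (X.level S) = O.toSubring ⊓ (FS N q S).toSubring := by
  ext y
  exact mem_gaussRing_iff X S

include hX in
/-- **the valuation of the component is discrete on `F_S`**, with uniformizer the uniformizer of
the tower -/
theorem exists_valuation_eq_zpow_FS (S : Finset Kb) {y : Fb N} (hy : y ∈ FS N q S)
    (hy0 : y ≠ 0) :
    ∃ n : ℤ, O.valuation y =
      O.valuation (algebraMap Kb (Fb N) (BR.Inst.Levels.unif A hq hA S)) ^ n :=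
  exists_valuation_eq_zpow (X.level S) hX.hAO ((isFrac_iff X S).mpr hy) hy0

include hX in
/-- **(H1)** for `O₀ = O ∩ F_S`, `w = ϖ_S`: a function of `F_S` in the maximal ideal of the
component is divisible by the uniformizer in `O ∩ F_S` -/
theorem div_unif_mem_FS (S : Finset Kb) {y : Fb N} (hyO : y ∈ O) (hy : y ∈ FS N q S)
    (hlt : O.valuation y < 1) :
    y / algebraMap Kb (Fb N) (BR.Inst.Levels.unif A hq hA S) ∈ O ∧
      y / algebraMap Kb (Fb N) (BR.Inst.Levels.unif A hq hA S) ∈ FS N q S :=
  (mem_gaussRing_iff X S).mp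
    (div_unif_mem (X.level S) hX.hAO ((mem_gaussRing_iff X S).mpr ⟨hyO, hy⟩) hlt)

include hX in
/-- **(H2)** for `O₀ = O ∩ F_S`, `w = ϖ_S`: a function of `F_S` divisible by every power of the
uniformizer is zero -/
theorem eq_zero_of_forall_div_pow_mem_FS (S : Finset Kb) {y : Fb N} (hy : y ∈ FS N q S)
    (h : ∀ n : ℕ, y / algebraMap Kb (Fb N) (BR.Inst.Levels.unif A hq hA S) ^ n ∈ O) : y = 0 :=
  eq_zero_of_forall_div_pow_mem (X.level S) hX.hAO ((isFrac_iff X S).mpr hy) h

end Loc

end Fermat.Agent.FF3.DiscInst
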