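/-
PROGRAMME I (S33, p-new half), block B3 (expansion layer), node DISC-INST (helper24): the standing
hypotheses of the disc column at the smooth families of the modular tower.

* `standing_of_constRed` : for a component given by a constant reduction `Cr : ConstRed A π`
  (`O = Cr.O`, `res = Cr.res`) the standing hypotheses hold for every family;
* `standing₀_final`, `standing₁_final` : at `SmoothFam.towerFamily₀_final`, `towerFamily₁_final`
  (the non-crossing points of the two components of `Final.setupFinal`);
* `discExpand₀`, `discExpand₁` : the expansions `R S →+* B` there (`DiscInst.discExpandS`).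

All the clauses of `DiscInst/Tower.lean` apply with `X := towerFamily₀_final B hB hqM Q hQ`,
`hX := standing₀_final B hB hqM Q hQ` (resp. `₁`), for every `(Ω, j)` with `‖j c‖ ≤ 1 ↔ c ∈ B`
and every target.
-/
import Mathlib
import Fermat.Agent.FF3.SmoothFam.Final
import Fermat.Agent.FF3.DiscInst.Tower

set_option autoImplicit false
set_option linter.unusedSectionVars false
set_option synthInstance.maxHeartbeats 400000

noncomputable section

namespace Fermat.Agent.FF3.DiscInst

open ModularCurve AlgebraicCurve IsLocalRing
open Fermat.Agent.X0 Fermat.Agent.Val Fermat.Agent.Red Fermat.Agent.BR.Centre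
open Fermat.Agent.BR.S0 Fermat.Agent.BR.S0.RedModular Fermat.Agent.BR.S0.RedHyp
open Fermat.Agent.BR.S0.PointDict Fermat.Agent.BR.S0.GeomModular Fermat.Agent.BR.S0.GeomFinal
open Fermat.Agent.BR.S0.SmoothAssembly Fermat.Agent.BR.Inst.Levels
open Fermat.Agent.FF3.SmoothFam Fermat.Agent.FF3.ExpandDisc

/-- the standing hypotheses for a component given by a constant reduction -/
theorem standing_of_constRed {N : ℕ} [NeZero N] {A : ValuationSubring Kb} {q : ℕ} {hq : q.Prime}
    {hA : A.LiesOverPrime q} {k Ft : Type*} [Field k] [Field Ft] [Algebra k Ft] {π : A →+* k}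
    (Cr : ConstRed (F := Fb N) (Ft := Ft) A π) {Q : Place k Ft} {T : Set (Place Kb (Fb N))}
    (X : TowerFamily A hq hA Cr.O Cr.res Q T) : Standing X π where
  hres := Cr.res_algebraMap
  hker := fun x hx => (constRed_res_eq_zero_iff Cr x).mpr hx
  hAO := constRed_algebraMap_mem_nonunits Cr

variable {M q : ℕ} [NeZero M] [hqF : Fact q.Prime]
variable (B : ValuationSubring Kb) (hB : B.LiesOverPrime q) (hqM : ¬ q ∣ M)

local notation "kB" => IsLocalRing.ResidueField B
local notation "FtM" => modularFunctionFieldFullC (IsLocalRing.ResidueField B) M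

/-- the standing hypotheses at a non-crossing point of the component `0` -/
theorem standing₀_final (Q : Place kB FtM) (hQ : ∀ e, Q ≠ z₁ (chartDataModular B hB hqM) e) :
    Standing (towerFamily₀_final B hB hqM Q hQ) (IsLocalRing.residue B) :=
  standing_of_constRed (compW B hB hqM 0) _

/-- the standing hypotheses at a non-crossing point of the component `1` -/
theorem standing₁_final (Q : Place kB FtM) (hQ : ∀ e, Q ≠ z₂ (chartDataModular B hB hqM) e) :
    Standing (towerFamily₁_final B hB hqM Q hQ) (IsLocalRing.residue B) :=
  standing_of_constRed (compW B hB hqM 1) _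

section Expand

variable {Ω : Type*} [NormedField Ω] [IsUltrametricDist Ω] (j : Kb →+* Ω)
  (hj : ∀ c : Kb, ‖j c‖ ≤ 1 ↔ c ∈ B) {D : Type*} [CommRing D]

/-- **The expansion at a non-crossing point of the component `0`, level `S`.** -/
def discExpand₀ (Q : Place kB FtM) (hQ : ∀ e, Q ≠ z₁ (chartDataModular B hB hqM) e)
    (S : Finset Kb) (Tg : Target (towerFamily₀_final B hB hqM Q hQ) j S D) :
    (towerFamily₀_final B hB hqM Q hQ).R S →+* D :=
  discExpandS _ (standing₀_final B hB hqM Q hQ) j hj S Tg

/-- **The expansion at a non-crossing point of the component `1`, level `S`.** -/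
def discExpand₁ (Q : Place kB FtM) (hQ : ∀ e, Q ≠ z₂ (chartDataModular B hB hqM) e)
    (S : Finset Kb) (Tg : Target (towerFamily₁_final B hB hqM Q hQ) j S D) :
    (towerFamily₁_final B hB hqM Q hQ).R S →+* D :=
  discExpandS _ (standing₁_final B hB hqM Q hQ) j hj S Tg

end Expand

end Fermat.Agent.FF3.DiscInst
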