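/-
PROGRAMME I (S33, p-new half), blocks B3/B4, node DISC-INST, component part (helper24): the
`DVCompl.Datum` (helper16) of a component at a level of the tower, from ONE smooth point.

For a smooth family `X : TowerFamily A hq hA O res Q T` with the standing hypotheses, and a level
`S : Finset Kb`: `F_S := FS N q S` (the `K₀(S)`-rational functions), `O₀ := O ∩ F_S`,
`w := ϖ_S = unif A hq hA S`:

* `datumOfFamily X hX S : DVCompl.Datum (FS N q S)` with `mem_datumOfFamily_O₀` (`x ∈ O₀ ↔ x ∈ O`,
  `rfl`) and `datumOfFamily_w` (`rfl`): (H1), (H2) from `FF3/ExpandDisc/Loc` (helper25) through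
  `Frac (X.R S) = F_S`;
* `exists_noncrossing_zero`, `exists_noncrossing_one` : either component of the model of `X₀(qM)` at
  `q` has a point which is not a crossing;
* `compDatum B hB hqM v S : DVCompl.Datum (FS (M * q) q S)` for `v : Fin 2`, with
  `mem_compDatum_O₀ : x ∈ (compDatum B hB hqM v S).O₀ ↔ (x : Fb (M * q)) ∈ (compW B hB hqM v).O`
  and `compDatum_w` — the input `D`, `hO`, `hw` of `B4.CompPack.ofDatum` (helper22) at the
  modular setup, UNCONDITIONAL.
-/
import Mathlib
import Fermat.Agent.FF3.DVCompl.Datum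
import Fermat.Agent.FF3.DiscInst.Modular

set_option autoImplicit false
set_option linter.unusedSectionVars false
set_option synthInstance.maxHeartbeats 400000
set_option linter.style.haveILetI false

noncomputable section

namespace Fermat.Agent.FF3.DiscInst

open ModularCurve AlgebraicCurve IsLocalRing
open Fermat.Agent.X0 Fermat.Agent.Val Fermat.Agent.Red Fermat.Agent.BR.Centre
open Fermat.Agent.BR.S0 Fermat.Agent.BR.S0.RedModular Fermat.Agent.BR.S0.RedHyp
open Fermat.Agent.BR.S0.PointDict Fermat.Agent.BR.S0.GeomModular Fermat.Agent.BR.S0.GeomFinal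
open Fermat.Agent.BR.S0.SmoothAssembly Fermat.Agent.BR.Inst.Levels
open Fermat.Agent.FF3.SmoothFam Fermat.Agent.FF3.ExpandDisc Fermat.Agent.FF3.DVCompl

/-! ### the datum of a family -/

section Family

variable {N : ℕ} [NeZero N] {A : ValuationSubring Kb} {q : ℕ} {hq : q.Prime}
  {hA : A.LiesOverPrime q} {k Ft : Type*} [Field k] [Field Ft] [Algebra k Ft]
  {O : ValuationSubring (Fb N)} {res : O →+* Ft} {Q : Place k Ft}
  {T : Set (Place Kb (Fb N))} (X : TowerFamily A hq hA O res Q T) {π : A →+* k}
  (hX : Standing X π)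

/-- the uniformizer of the level as a `K₀(S)`-rational function -/
def unifFS (N : ℕ) [NeZero N] (A : ValuationSubring Kb) {q : ℕ} (hq : q.Prime)
    (hA : A.LiesOverPrime q) (S : Finset Kb) : FS N q S :=
  ⟨algebraMap Kb (Fb N) (BR.Inst.Levels.unif A hq hA S), const_mem_FS N q (unif_mem_KS A hq hA S)⟩

@[simp] theorem coe_unifFS (S : Finset Kb) :
    ((unifFS N A hq hA S : FS N q S) : Fb N) =
      algebraMap Kb (Fb N) (BR.Inst.Levels.unif A hq hA S) := rfl

theorem unifFS_ne_zero (S : Finset Kb) : unifFS N A hq hA S ≠ 0 := by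
  intro h
  have h1 : algebraMap Kb (Fb N) (BR.Inst.Levels.unif A hq hA S) = 0 :=
    congrArg (fun z : FS N q S => (z : Fb N)) h
  exact unif_ne_zero A hq hA S ((map_eq_zero _).mp h1)

/-- the valuation ring of the component in `F_S` -/
def OFS (O : ValuationSubring (Fb N)) (q : ℕ) (S : Finset Kb) : ValuationSubring (FS N q S) :=
  O.comap (FS N q S).subtype

theorem mem_OFS {S : Finset Kb} {x : FS N q S} : x ∈ OFS O q S ↔ (x : Fb N) ∈ O := Iff.rfl

/-- a non-unit of `O ∩ F_S` lies in the maximal ideal of `O` -/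
theorem valuation_lt_one_of_not_isUnit {S : Finset Kb} (x : OFS O q S) (hx : ¬ IsUnit x) :
    O.valuation (((x : FS N q S) : Fb N)) < 1 := by
  by_contra hge
  rw [not_lt] at hge
  apply hx
  have hxO : ((x : FS N q S) : Fb N) ∈ O := x.2
  have h1 : O.valuation (((x : FS N q S) : Fb N)) = 1 :=
    le_antisymm ((O.valuation_le_one_iff _).mpr hxO) hge
  have hx0 : (x : FS N q S) ≠ 0 := by
    intro h0
    rw [h0, ZeroMemClass.coe_zero, map_zero] at h1
    exact zero_ne_one h1
  have hinv : ((x : FS N q S)⁻¹ : FS N q S) ∈ OFS O q S := by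
    rw [mem_OFS, Subfield.coe_inv, ← O.valuation_le_one_iff, map_inv₀, h1, inv_one]
  exact IsUnit.of_mul_eq_one (⟨(x : FS N q S)⁻¹, hinv⟩ : OFS O q S)
    (Subtype.ext (mul_inv_cancel₀ hx0))

/-- **The datum `(F_S, O ∩ F_S, ϖ_S)` of the DV-completion package**, from a smooth family at one
point of the component. -/
def datumOfFamily (S : Finset Kb) : Datum (FS N q S) where
  O₀ := OFS O q S
  w := unifFS N A hq hA S
  w_mem := (X.level S).le _ (X.level S).unif_mem
  w_ne_zero := unifFS_ne_zero S
  dvd_of_not_isUnit x hx := by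
    have hlt := valuation_lt_one_of_not_isUnit x hx
    obtain ⟨h1, h2⟩ := div_unif_mem_FS X hX S x.2 (x : FS N q S).2 hlt
    refine ⟨⟨⟨_, h2⟩, h1⟩, ?_⟩
    apply Subtype.ext
    apply Subtype.ext
    show ((x : FS N q S) : Fb N) = algebraMap Kb (Fb N) (BR.Inst.Levels.unif A hq hA S) *
      (((x : FS N q S) : Fb N) / algebraMap Kb (Fb N) (BR.Inst.Levels.unif A hq hA S))
    rw [mul_div_cancel₀]
    exact (map_ne_zero _).mpr (unif_ne_zero A hq hA S)
  eq_zero_of_forall_dvd x hx := by
    have hw0 : algebraMap Kb (Fb N) (BR.Inst.Levels.unif A hq hA S) ≠ 0 :=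
      (map_ne_zero _).mpr (unif_ne_zero A hq hA S)
    have h0 : ((x : FS N q S) : Fb N) = 0 := by
      refine eq_zero_of_forall_div_pow_mem_FS X hX S (x : FS N q S).2 fun n => ?_
      obtain ⟨y, hy⟩ := hx n
      have e : ((x : FS N q S) : Fb N) =
          algebraMap Kb (Fb N) (BR.Inst.Levels.unif A hq hA S) ^ n * ((y : FS N q S) : Fb N) :=
        congrArg (fun z : OFS O q S => (((z : FS N q S)) : Fb N)) hy
      rw [e, mul_div_cancel_left₀ _ (pow_ne_zero n hw0)]
      exact y.2
    exact Subtype.ext (Subtype.ext h0)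

theorem mem_datumOfFamily_O₀ (S : Finset Kb) (x : FS N q S) :
    x ∈ (datumOfFamily X hX S).O₀ ↔ (x : Fb N) ∈ O := Iff.rfl

theorem datumOfFamily_O₀ (S : Finset Kb) : (datumOfFamily X hX S).O₀ = OFS O q S := rfl

theorem datumOfFamily_w (S : Finset Kb) : (datumOfFamily X hX S).w = unifFS N A hq hA S := rfl

end Family

/-! ### the components of the modular setup -/

section Modular

variable {M q : ℕ} [NeZero M] [hqF : Fact q.Prime]
variable (B : ValuationSubring Kb) (hB : B.LiesOverPrime q) (hqM : ¬ q ∣ M)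

local notation "kB" => IsLocalRing.ResidueField B
local notation "FtM" => modularFunctionFieldFullC (IsLocalRing.ResidueField B) M

/-- the component `0` has a point which is not a crossing -/
theorem exists_noncrossing_zero :
    ∃ Q : Place kB FtM, ∀ e, Q ≠ z₁ (chartDataModular B hB hqM) e := by
  haveI : Finite (Crossing (chartDataModular B hB hqM)) :=
    Fermat.Agent.BR.S0.Modular.finite_crossing (atlasHyp_modular_final B hB hqM)
      (Fermat.Agent.BR.ModUnit.TB_mem_chartFin M q)
  haveI : Infinite (Place kB FtM) := (riemannPkg_modL_residueField M hqM B hB).infinite_places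
  obtain ⟨Q, hQ⟩ := (Set.finite_range (z₁ (chartDataModular B hB hqM))).infinite_compl.nonempty
  exact ⟨Q, fun e he => hQ ⟨e, he.symm⟩⟩

/-- the component `1` has a point which is not a crossing -/
theorem exists_noncrossing_one :
    ∃ Q : Place kB FtM, ∀ e, Q ≠ z₂ (chartDataModular B hB hqM) e := by
  haveI : Finite (Crossing (chartDataModular B hB hqM)) :=
    Fermat.Agent.BR.S0.Modular.finite_crossing (atlasHyp_modular_final B hB hqM)
      (Fermat.Agent.BR.ModUnit.TB_mem_chartFin M q)
  haveI : Infinite (Place kB FtM) := (riemannPkg_modL_residueField M hqM B hB).infinite_places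
  obtain ⟨Q, hQ⟩ := (Set.finite_range (z₂ (chartDataModular B hB hqM))).infinite_compl.nonempty
  exact ⟨Q, fun e he => hQ ⟨e, he.symm⟩⟩

/-- the uniformizer of the level lies in either component -/
theorem unifFS_mem_comp (v : Fin 2) (S : Finset Kb) :
    unifFS (M * q) B hqF.out hB S ∈ OFS (compW B hB hqM v).O q S := by
  rw [mem_OFS, coe_unifFS]
  exact ((compW B hB hqM v).algebraMap_mem_iff _).mpr
    ((B.valuation_le_one_iff _).mp (unif_lt_one B hqF.out hB S).le)

/-- **(H1)** for either component of the modular setup at the level `S` -/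
theorem comp_dvd_of_not_isUnit : ∀ (v : Fin 2) (S : Finset Kb)
    (x : OFS (compW B hB hqM v).O q S), ¬ IsUnit x →
    ∃ y : OFS (compW B hB hqM v).O q S,
      x = ⟨unifFS (M * q) B hqF.out hB S, unifFS_mem_comp B hB hqM v S⟩ * y := by
  intro v
  fin_cases v
  · intro S x hx
    obtain ⟨Q, hQ⟩ := exists_noncrossing_zero B hB hqM
    exact (datumOfFamily (towerFamily₀_final B hB hqM Q hQ)
      (standing₀_final B hB hqM Q hQ) S).dvd_of_not_isUnit x hx
  · intro S x hx
    obtain ⟨Q, hQ⟩ := exists_noncrossing_one B hB hqM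
    exact (datumOfFamily (towerFamily₁_final B hB hqM Q hQ)
      (standing₁_final B hB hqM Q hQ) S).dvd_of_not_isUnit x hx

/-- **(H2)** for either component of the modular setup at the level `S` -/
theorem comp_eq_zero_of_forall_dvd : ∀ (v : Fin 2) (S : Finset Kb)
    (x : OFS (compW B hB hqM v).O q S),
    (∀ n : ℕ, ∃ y : OFS (compW B hB hqM v).O q S,
      x = ⟨unifFS (M * q) B hqF.out hB S, unifFS_mem_comp B hB hqM v S⟩ ^ n * y) → x = 0 := by
  intro v
  fin_cases v
  · intro S x hx
    obtain ⟨Q, hQ⟩ := exists_noncrossing_zero B hB hqM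
    exact (datumOfFamily (towerFamily₀_final B hB hqM Q hQ)
      (standing₀_final B hB hqM Q hQ) S).eq_zero_of_forall_dvd x hx
  · intro S x hx
    obtain ⟨Q, hQ⟩ := exists_noncrossing_one B hB hqM
    exact (datumOfFamily (towerFamily₁_final B hB hqM Q hQ)
      (standing₁_final B hB hqM Q hQ) S).eq_zero_of_forall_dvd x hx

/-- **The datum `(F_S, O_v ∩ F_S, ϖ_S)` of the component `v` of the model of `X₀(qM)` at `q`, at
the level `S`** — the input of `B4.CompPack.ofDatum`. -/
def compDatum (v : Fin 2) (S : Finset Kb) : Datum (FS (M * q) q S) where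
  O₀ := OFS (compW B hB hqM v).O q S
  w := unifFS (M * q) B hqF.out hB S
  w_mem := unifFS_mem_comp B hB hqM v S
  w_ne_zero := unifFS_ne_zero S
  dvd_of_not_isUnit := comp_dvd_of_not_isUnit B hB hqM v S
  eq_zero_of_forall_dvd := comp_eq_zero_of_forall_dvd B hB hqM v S

theorem mem_compDatum_O₀ (v : Fin 2) (S : Finset Kb) (x : FS (M * q) q S) :
    x ∈ (compDatum B hB hqM v S).O₀ ↔ (x : Fb (M * q)) ∈ (compW B hB hqM v).O := Iff.rfl

theorem compDatum_w (v : Fin 2) (S : Finset Kb) :
    (compDatum B hB hqM v S).w = unifFS (M * q) B hqF.out hB S := rfl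

/-- the valuation of either component is discrete on `F_S`, with uniformizer `ϖ_S` -/
theorem comp_exists_valuation_eq_zpow : ∀ (v : Fin 2) (S : Finset Kb) {y : Fb (M * q)},
    y ∈ FS (M * q) q S → y ≠ 0 →
    ∃ n : ℤ, (compW B hB hqM v).O.valuation y =
      (compW B hB hqM v).O.valuation
        (algebraMap Kb (Fb (M * q)) (BR.Inst.Levels.unif B hqF.out hB S)) ^ n := by
  intro v
  fin_cases v
  · intro S y hy hy0
    obtain ⟨Q, hQ⟩ := exists_noncrossing_zero B hB hqM
    exact exists_valuation_eq_zpow_FS (towerFamily₀_final B hB hqM Q hQ)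
      (standing₀_final B hB hqM Q hQ) S hy hy0
  · intro S y hy hy0
    obtain ⟨Q, hQ⟩ := exists_noncrossing_one B hB hqM
    exact exists_valuation_eq_zpow_FS (towerFamily₁_final B hB hqM Q hQ)
      (standing₁_final B hB hqM Q hQ) S hy hy0

end Modular

end Fermat.Agent.FF3.DiscInst
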