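/-
PROGRAMME I (S33, p-new half), assembly node T3, DISC-PLUG (helper24): the disc parts of the
expansion package at the modular setup `setup Dt`, ALL closed points `x` of the special fibre.

For `Dt : ModularData M q B hB hqM`, a level `Sl : Finset Kb`, ANY family of data
`Dd : Fin 2 → DVCompl.Datum (FKs (M * q) (KS q Sl))` with `hO`, `hw` (helper21's `ExpPackComp.datum`
or `DiscInst.compDatum`), `(Ω, j, hj)` complete ultrametric (`Ω : Type`), a notion `Adm` of
admissible divisors whose points are rational over the level (`hAdmRat`: the values at the points of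
`E'` of the functions of the level are constants of the level — the literal of `StepB.RatPlace`) and
an exponent `n` with `(n : Ω) ≠ 0`:

* `discPartU Dt Sl Dd hO hw j hj Adm hAdmRat n hn :
    ∀ x, ExpandDisc.DiscPartU (B4.CompPack.ofDatum (setup Dt) Dd hO hw) Adm x n`
  = `discPartUOfIsBranch` at the branch points, helper25's `discPartUOfDatum` at the smooth family
  `towerFamily₀_modular / ₁_modular B hB hqM Dt.G Q hQ` with helper26's target `targetS` and Amice
  boundary ring `amiceBoundaryS` (+ `_hasRoots`, `hBdens_targetS`) elsewhere.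
-/
import Mathlib
import Fermat.Agent.BR2.SetupOfData
import Fermat.Agent.FF3.SmoothFam.Modular
import Fermat.Agent.FF3.DiscInst.Modular
import Fermat.Agent.FF3.DiscTarget.TowerBd
import Fermat.Agent.FF3.ExpandDisc.PartUnit

set_option autoImplicit false
set_option linter.unusedSectionVars false
set_option linter.style.haveILetI false
set_option synthInstance.maxHeartbeats 400000

noncomputable section

namespace Fermat.Agent.FF3.DiscInst

open ModularCurve AlgebraicCurve IsLocalRing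
open Fermat.Agent.X0 Fermat.Agent.Val Fermat.Agent.Red Fermat.Agent.BR.Centre
open Fermat.Agent.BR Fermat.Agent.BR.SS Fermat.Agent.BR.Final Fermat.Agent.BR2.SetupOfData
open Fermat.Agent.BR.S0 Fermat.Agent.BR.S0.RedModular Fermat.Agent.BR.S0.RedHyp
open Fermat.Agent.BR.S0.PointDict Fermat.Agent.BR.S0.GeomModular
open Fermat.Agent.BR.S0.SmoothAssembly Fermat.Agent.BR.Inst.Levels Fermat.Agent.BR.Inst.FKCover
open Fermat.Agent.FF3.SmoothFam Fermat.Agent.FF3.ExpandDisc Fermat.Agent.FF3.DVCompl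
open Fermat.Agent.FF3.DiscTarget Fermat.Agent.FF3.B4

/-! ### rational points of the tube have their coordinate in the level -/

section Family

variable {N : ℕ} [NeZero N] {A : ValuationSubring Kb} {q : ℕ} {hq : q.Prime}
  {hA : A.LiesOverPrime q} {k Ft : Type*} [Field k] [Field Ft] [Algebra k Ft]
  {O : ValuationSubring (Fb N)} {res : O →+* Ft} {Q : Place k Ft}
  {T : Set (Place Kb (Fb N))} (X : TowerFamily A hq hA O res Q T)

/-- a place of the tube at which the values of the functions of the level are constants of the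
level has its coordinate in the level ring -/
theorem coord_mem_of_ratPlace (S : Finset Kb) {P : Place Kb (Fb N)} (hP : P ∈ T)
    (hrat : ∀ h ∈ FKs N (KS q S), ∀ c : Kb, IsValueAt P h c → c ∈ KS q S) :
    algebraMap Kb (Fb N) (evalAt P X.t) ∈ X.R S := by
  have h1 : IsValueAt P X.t (evalAt P X.t) := (X.level S).isValueAt_evalAt hP
  have h2 : evalAt P X.t ∈ KS q S := hrat X.t (X.le_FKs S _ (X.level S).t_mem) _ h1
  have h3 : A.valuation (evalAt P X.t) < 1 := (X.level S).valuation_evalAt_lt_one hP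
  exact X.const_mem S _ ⟨(A.valuation_le_one_iff _).mp h3.le, h2⟩

end Family

/-! ### the disc parts at the modular setup -/

variable {M q : ℕ} [NeZero M] [hq : Fact q.Prime]
variable {B : ValuationSubring Kb} {hB : B.LiesOverPrime q} {hqM : ¬ q ∣ M}
variable [IsAlgClosed (ResidueField B)]

local notation "kB" => IsLocalRing.ResidueField B
local notation "FtM" => modularFunctionFieldFullC (IsLocalRing.ResidueField B) M

variable (Dt : ModularData M q B hB hqM)

theorem ne_z₁_of_not_isBranch {Q : Place kB FtM} (hx : ¬ (setup Dt).IsBranch (⟨0, Q⟩ : Σ _ : Fin 2, Place kB FtM))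
    (e : Crossing (chartDataModular B hB hqM)) : Q ≠ z₁ (chartDataModular B hB hqM) e := by
  rintro rfl
  exact hx ⟨e, Or.inl rfl⟩

theorem ne_z₂_of_not_isBranch {Q : Place kB FtM} (hx : ¬ (setup Dt).IsBranch (⟨1, Q⟩ : Σ _ : Fin 2, Place kB FtM))
    (e : Crossing (chartDataModular B hB hqM)) : Q ≠ z₂ (chartDataModular B hB hqM) e := by
  rintro rfl
  exact hx ⟨e, Or.inr rfl⟩

set_option maxHeartbeats 4000000 in
/-- **the disc part at a smooth point of the component `0`** -/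
def discPartU_zero (Sl : Finset Kb)
    {ϖ : FKs (M * q) (KS q Sl)}
    (hϖ : ((ϖ : FKs (M * q) (KS q Sl)) : Fb (M * q)) =
      algebraMap Kb (Fb (M * q)) (BR.Inst.Levels.unif B hq.out hB Sl))
    (Dd : Fin 2 → Datum (FKs (M * q) (KS q Sl)))
    (hO : ∀ (v : Fin 2) (y : FKs (M * q) (KS q Sl)),
      y ∈ (Dd v).O₀ ↔ (y : Fb (M * q)) ∈ (setup Dt).O v)
    (hw : ∀ v, (Dd v).w = ϖ)
    {Ω : Type} [NormedField Ω] [IsUltrametricDist Ω] [CompleteSpace Ω]
    (j : Kb →+* Ω) (hj : ∀ c : Kb, ‖j c‖ ≤ 1 ↔ c ∈ B)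
    (Adm : Divisor Kb (Fb (M * q)) → Prop)
    (hAdmRat : ∀ E', Adm E' → ∀ P ∈ E'.support,
      ∀ h ∈ FKs (M * q) (KS q Sl), ∀ c : Kb, IsValueAt P h c → c ∈ KS q Sl)
    (n : ℕ) (hn : (n : Ω) ≠ 0)
    (Q : Place kB FtM) (hx : ¬ (setup Dt).IsBranch (⟨0, Q⟩ : Σ _ : Fin 2, Place kB FtM)) :
    DiscPartU.{0, 0, 0, 0, 0, 0, 0} (CompPack.ofDatum (setup Dt) Dd hO hw) Adm
      (⟨0, Q⟩ : Σ _ : Fin 2, Place kB FtM) n :=
  let X := towerFamily₀_modular B hB hqM Dt.G Q (ne_z₁_of_not_isBranch Dt hx)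
  have hX : Standing X (IsLocalRing.residue B) := standing_of_constRed (compW B hB hqM 0) X
  discPartUOfDatum (S := setup Dt) (x := (⟨0, Q⟩ : Σ _ : Fin 2, Place kB FtM)) Dd hO hw X.fam (fun _ => Iff.rfl) X.ord_t Sl
    (X.le_FKs Sl) (fun h => X.frac_FS Sl h h.2) hϖ j (norm_le_one_of_mem j hj)
    (norm_lt_one_of_lt j hj) (targetS X hX j hj Sl) (exists_collar X hX j hj)
    (amiceBoundaryS X hX j hj Sl) (isPrime_span_targetS X hX j hj Sl)
    (X_notMem_span_targetS X hX j hj Sl) (hBdens_targetS X hX j hj Sl) Adm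
    (fun E' hE' P hP hPx => coord_mem_of_ratPlace X Sl hPx (hAdmRat E' hE' P hP)) n
    (amiceBoundaryS_hasRoots X hX j hj Sl hn)

set_option maxHeartbeats 4000000 in
/-- **the disc part at a smooth point of the component `1`** -/
def discPartU_one (Sl : Finset Kb)
    {ϖ : FKs (M * q) (KS q Sl)}
    (hϖ : ((ϖ : FKs (M * q) (KS q Sl)) : Fb (M * q)) =
      algebraMap Kb (Fb (M * q)) (BR.Inst.Levels.unif B hq.out hB Sl))
    (Dd : Fin 2 → Datum (FKs (M * q) (KS q Sl)))
    (hO : ∀ (v : Fin 2) (y : FKs (M * q) (KS q Sl)),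
      y ∈ (Dd v).O₀ ↔ (y : Fb (M * q)) ∈ (setup Dt).O v)
    (hw : ∀ v, (Dd v).w = ϖ)
    {Ω : Type} [NormedField Ω] [IsUltrametricDist Ω] [CompleteSpace Ω]
    (j : Kb →+* Ω) (hj : ∀ c : Kb, ‖j c‖ ≤ 1 ↔ c ∈ B)
    (Adm : Divisor Kb (Fb (M * q)) → Prop)
    (hAdmRat : ∀ E', Adm E' → ∀ P ∈ E'.support,
      ∀ h ∈ FKs (M * q) (KS q Sl), ∀ c : Kb, IsValueAt P h c → c ∈ KS q Sl)
    (n : ℕ) (hn : (n : Ω) ≠ 0)
    (Q : Place kB FtM) (hx : ¬ (setup Dt).IsBranch (⟨1, Q⟩ : Σ _ : Fin 2, Place kB FtM)) :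
    DiscPartU.{0, 0, 0, 0, 0, 0, 0} (CompPack.ofDatum (setup Dt) Dd hO hw) Adm
      (⟨1, Q⟩ : Σ _ : Fin 2, Place kB FtM) n :=
  let X := towerFamily₁_modular B hB hqM Dt.G Q (ne_z₂_of_not_isBranch Dt hx)
  have hX : Standing X (IsLocalRing.residue B) := standing_of_constRed (compW B hB hqM 1) X
  discPartUOfDatum (S := setup Dt) (x := (⟨1, Q⟩ : Σ _ : Fin 2, Place kB FtM)) Dd hO hw X.fam (fun _ => Iff.rfl) X.ord_t Sl
    (X.le_FKs Sl) (fun h => X.frac_FS Sl h h.2) hϖ j (norm_le_one_of_mem j hj)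
    (norm_lt_one_of_lt j hj) (targetS X hX j hj Sl) (exists_collar X hX j hj)
    (amiceBoundaryS X hX j hj Sl) (isPrime_span_targetS X hX j hj Sl)
    (X_notMem_span_targetS X hX j hj Sl) (hBdens_targetS X hX j hj Sl) Adm
    (fun E' hE' P hP hPx => coord_mem_of_ratPlace X Sl hPx (hAdmRat E' hE' P hP)) n
    (amiceBoundaryS_hasRoots X hX j hj Sl hn)

set_option maxHeartbeats 4000000 in
open scoped Classical in
/-- **DISC-PLUG: the disc parts of the expansion package at the modular setup**, with the clauses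
DISC-UNIT and DISC-ROOT, at ALL closed points of the special fibre. -/
def discPartU (Sl : Finset Kb)
    {ϖ : FKs (M * q) (KS q Sl)}
    (hϖ : ((ϖ : FKs (M * q) (KS q Sl)) : Fb (M * q)) =
      algebraMap Kb (Fb (M * q)) (BR.Inst.Levels.unif B hq.out hB Sl))
    (Dd : Fin 2 → Datum (FKs (M * q) (KS q Sl)))
    (hO : ∀ (v : Fin 2) (y : FKs (M * q) (KS q Sl)),
      y ∈ (Dd v).O₀ ↔ (y : Fb (M * q)) ∈ (setup Dt).O v)
    (hw : ∀ v, (Dd v).w = ϖ)
    {Ω : Type} [NormedField Ω] [IsUltrametricDist Ω] [CompleteSpace Ω]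
    (j : Kb →+* Ω) (hj : ∀ c : Kb, ‖j c‖ ≤ 1 ↔ c ∈ B)
    (Adm : Divisor Kb (Fb (M * q)) → Prop)
    (hAdmRat : ∀ E', Adm E' → ∀ P ∈ E'.support,
      ∀ h ∈ FKs (M * q) (KS q Sl), ∀ c : Kb, IsValueAt P h c → c ∈ KS q Sl)
    (n : ℕ) (hn : (n : Ω) ≠ 0)
    (x : Σ _ : Fin 2, Place kB FtM) :
    DiscPartU.{0, 0, 0, 0, 0, 0, 0} (CompPack.ofDatum (setup Dt) Dd hO hw) Adm x n :=
  if hx : (setup Dt).IsBranch x then discPartUOfIsBranch _ Adm x n hx
  else
    match x, hx with
    | ⟨0, Q⟩, hx => discPartU_zero Dt Sl hϖ Dd hO hw j hj Adm hAdmRat n hn Q hx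
    | ⟨1, Q⟩, hx => discPartU_one Dt Sl hϖ Dd hO hw j hj Adm hAdmRat n hn Q hx

end Fermat.Agent.FF3.DiscInst
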